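import Fermat.Agent.S31x.Hc.H19_Mat
import Fermat.Agent.S31x.H16_Top
import Fermat.Agent.S30x.Ev.H23_MatPsi
import Fermat.Agent.S42x.Heq.H26_HeckeAn

/-!
# S31 (W9): the Hecke congruence (HC) and the frozen statement from `StSpec` alone
(helper19, W9 chief)

* `h19_matModel`    : the matrix model, hypothesis-free (helper23's (MAT) + saturation);
* `h19_stHCd`       : **(HC)** `StHCd p N S` from `StSpec N p` alone;
* `h19_s31_of_spec` : the frozen statement S31 from `StSpec N p` alone.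
-/

set_option autoImplicit false
set_option linter.style.haveILetI false
set_option synthInstance.maxHeartbeats 400000
set_option maxHeartbeats 1000000

open ModularCurve ModularCurve.Period AlgebraicCurve CongruenceSubgroup Polynomial Matrix
open scoped MatrixGroups

noncomputable section

namespace Fermat.Agent.S31x.Hc.H19

/-- An embedding of `ℚ̄` into `ℂ`. -/
def h19Emb : AlgebraicClosure ℚ →+* ℂ :=
  haveI : Algebra.IsAlgebraic ℚ (AlgebraicClosure ℚ) := AlgebraicClosure.isAlgebraic ℚ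
  (IsAlgClosed.lift (R := ℚ) (S := AlgebraicClosure ℚ) (M := ℂ)).toRingHom

/-- The standard primitive `m`-th root of unity in `ℂ`. -/
def h19Zeta (m : ℕ) : ℂ := Complex.exp (2 * Real.pi * Complex.I / m)

theorem h19Zeta_prim (m : ℕ) (hm : m ≠ 0) : IsPrimitiveRoot (h19Zeta m) m :=
  Complex.isPrimitiveRoot_exp m hm

variable {N p : ℕ} [NeZero N] {S : Finset ℕ}

/-- **(MAT)** the matrix model of the Hecke algebra, hypothesis-free. -/
theorem h19_matModel (hNS : ∀ q : ℕ, q.Prime → q ∣ N → q ∈ S) : H19MatModel N p S :=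
  h19_matModel_of (Fermat.Agent.S30x.Ev.H23.h23mB N) (Fermat.Agent.S30x.Ev.H23.h23mT N)
    (Fermat.Agent.S30x.Ev.H23.h23mB_par N) (Fermat.Agent.S30x.Ev.H23.h23mB_indep N)
    (fun ℓ _ hℓN γ σ γ' h j => Fermat.Agent.S30x.Ev.H23.h23mT_coset N ℓ hℓN γ σ γ' h j)
    (Fermat.Agent.S30x.Ev.H23.h23mPsi N (S : Set ℕ) (fun q hq hqN => by exact_mod_cast hNS q hq hqN))
    (fun _ hℓ hℓN hℓS => Fermat.Agent.S30x.Ev.H23.h23mPsi_T N (S : Set ℕ) _ hℓ hℓN hℓS)
    (Fermat.Agent.S30x.Ev.H23.h23mPsi_injective N (S : Set ℕ) _)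

/-- **(HC)** the Hecke congruence, from `StSpec N p` alone. -/
theorem h19_stHCd (hp : p.Prime) (hpS : p ∈ S) (hNS : ∀ q : ℕ, q.Prime → q ∣ N → q ∈ S)
    (hSpec : Fermat.Agent.S37x.Asm.StSpec N p) : Fermat.Agent.S31x.H16.StHCd p N S :=
  h19_stHCd_of hp hpS hNS hSpec h19Emb (fun n => h19Zeta (p ^ n))
    (fun n => h19Zeta_prim (p ^ n) (pow_ne_zero n hp.ne_zero))
    (fun n => Fermat.Agent.S42x.Heq.H26.stHeckeAn N (p ^ n) h19Emb (h19Zeta (p ^ n)))
    (h19_matModel hNS)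

variable {𝒪 : Type} [CommRing 𝒪] [IsDomain 𝒪] [IsDiscreteValuationRing 𝒪]
  [IsAdicComplete (IsLocalRing.maximalIdeal 𝒪) 𝒪]
  {θ : CuspForm.heckeAlgebra N 2 (↑S : Set ℕ) →+* IsLocalRing.ResidueField 𝒪}
  {T : Type} [CommRing T] [IsLocalRing T] [IsNoetherianRing T]
  [IsAdicComplete (IsLocalRing.maximalIdeal T) T] [Algebra 𝒪 T] [IsLocalHom (algebraMap 𝒪 T)]
  [Module.Finite 𝒪 T] [Module.Free 𝒪 T]

/-- **S31 from `StSpec N p` alone.** -/
theorem h19_s31_of_spec (hSpec : Fermat.Agent.S37x.Asm.StSpec N p) (hp : p.Prime)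
    (hp𝒪 : (p : 𝒪) ∈ IsLocalRing.maximalIdeal 𝒪) (hpS : p ∈ S)
    (hNS : ∀ q : ℕ, q.Prime → q ∣ N → q ∈ S)
    (H : CuspForm.HeckeGaloisRepDatum N (↑S : Set ℕ) 𝒪 θ T)
    (q : ℕ) (hq : q.Prime) (hqS : q ∉ S) :
    H.ρ.IsUnramifiedAt q :=
  Fermat.Agent.S31x.H16.s31_of_hcd (h19_stHCd hp hpS hNS hSpec) hp hp𝒪 hpS hNS H q hq hqS

end Fermat.Agent.S31x.Hc.H19
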