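import Mathlib

/-!
# S31 (W9), leaf (C-abs): the abstract core of the Hecke congruence (helper19)

`J` an abelian group, `Rel : J → (Fin r → ℤ) → Prop` an additive relation ("the class `x` and the
homomorphism `∑ c_j b_j` are Kummer-related"), operators `T` on `J` with integer matrices `t`
such that `Rel x c → Rel (T x) (t *ᵥ c)`.

* `h19c_rel_aeval` : `Rel x c → Rel (P(T) x) (P(t) *ᵥ c)` for every `P : ℤ[X]`;
* `h19c_dvd_of_eq` : if `Rel (x j) e_j`, `P(T) (x j) = P'(T') (x j)` for all `j` and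
  `Rel 0 c → M ∣ c i`, then `M` divides every entry of `P(t) - P'(t')`.
-/

set_option autoImplicit false

open Matrix Polynomial

namespace Fermat.Agent.S31x.Hc.H19

variable {J : Type*} [AddCommGroup J] {r : ℕ} (Rel : J → (Fin r → ℤ) → Prop)

/-- An additive relation is stable under integer multiples. -/
theorem h19c_rel_zsmul (hzero : Rel 0 0)
    (hadd : ∀ x x' c c', Rel x c → Rel x' c' → Rel (x + x') (c + c'))
    (hneg : ∀ x c, Rel x c → Rel (-x) (-c)) {x : J} {c : Fin r → ℤ} (h : Rel x c) (a : ℤ) :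
    Rel (a • x) (a • c) := by
  have hn : ∀ n : ℕ, Rel (n • x) (n • c) := by
    intro n
    induction n with
    | zero => simpa using hzero
    | succ n ih =>
      rw [succ_nsmul, succ_nsmul]
      exact hadd _ _ _ _ ih h
  obtain ⟨n, rfl | rfl⟩ := Int.eq_nat_or_neg a
  · simpa using hn n
  · have := hneg _ _ (hn n)
    simpa using this

/-- **(C-abs), step 1**: a polynomial in a Hecke operator acts on the relation through the same
polynomial in its matrix. -/
theorem h19c_rel_aeval (hzero : Rel 0 0)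
    (hadd : ∀ x x' c c', Rel x c → Rel x' c' → Rel (x + x') (c + c'))
    (hneg : ∀ x c, Rel x c → Rel (-x) (-c))
    (T : Module.End ℤ J) (t : Matrix (Fin r) (Fin r) ℤ)
    (hT : ∀ x c, Rel x c → Rel (T x) (t *ᵥ c)) (P : ℤ[X]) :
    ∀ x c, Rel x c → Rel (aeval T P x) (aeval t P *ᵥ c) := by
  induction P using Polynomial.induction_on with
  | C a =>
    intro x c h
    have h1 : aeval T (C a) x = a • x := by
      rw [aeval_C, algebraMap_int_eq, eq_intCast]
      simp
    have h2 : aeval t (C a) *ᵥ c = a • c := by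
      rw [aeval_C, Algebra.algebraMap_eq_smul_one, Matrix.smul_mulVec, Matrix.one_mulVec]
    rw [h1, h2]
    exact h19c_rel_zsmul Rel hzero hadd hneg h a
  | add P Q hP hQ =>
    intro x c h
    rw [map_add, map_add, Matrix.add_mulVec]
    exact hadd _ _ _ _ (hP x c h) (hQ x c h)
  | monomial n a ih =>
    intro x c h
    have h1 : aeval T (C a * X ^ (n + 1)) x = aeval T (C a * X ^ n) (T x) := by
      rw [pow_succ, ← mul_assoc, map_mul, aeval_X]
      rfl
    have h2 : aeval t (C a * X ^ (n + 1)) *ᵥ c = aeval t (C a * X ^ n) *ᵥ (t *ᵥ c) := by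
      rw [pow_succ, ← mul_assoc, map_mul, aeval_X, Matrix.mulVec_mulVec]
    rw [h1, h2]
    exact ih _ _ (hT x c h)

/-- **(C-abs), step 2**: two polynomial Hecke expressions which agree on Kummer classes of the
basis have matrices congruent modulo `M`. -/
theorem h19c_dvd_of_eq (hzero : Rel 0 0)
    (hadd : ∀ x x' c c', Rel x c → Rel x' c' → Rel (x + x') (c + c'))
    (hneg : ∀ x c, Rel x c → Rel (-x) (-c))
    (M : ℤ) (hinj : ∀ c, Rel 0 c → ∀ i, M ∣ c i)
    (T T' : Module.End ℤ J) (t t' : Matrix (Fin r) (Fin r) ℤ)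
    (hT : ∀ x c, Rel x c → Rel (T x) (t *ᵥ c))
    (hT' : ∀ x c, Rel x c → Rel (T' x) (t' *ᵥ c))
    (x : Fin r → J) (hx : ∀ j, Rel (x j) (Pi.single j 1))
    (P P' : ℤ[X]) (heq : ∀ j, aeval T P (x j) = aeval T' P' (x j)) (i j : Fin r) :
    M ∣ (aeval t P - aeval t' P') i j := by
  have h1 := h19c_rel_aeval Rel hzero hadd hneg T t hT P _ _ (hx j)
  have h2 := h19c_rel_aeval Rel hzero hadd hneg T' t' hT' P' _ _ (hx j)
  have h3 := hadd _ _ _ _ h1 (hneg _ _ h2)
  rw [heq j, add_neg_cancel] at h3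
  have h4 := hinj _ h3 i
  have h5 : (aeval t P *ᵥ (Pi.single j 1 : Fin r → ℤ) +
      -(aeval t' P' *ᵥ (Pi.single j 1 : Fin r → ℤ))) i = (aeval t P - aeval t' P') i j := by
    simp [Matrix.sub_apply, sub_eq_add_neg]
  rwa [h5] at h4

end Fermat.Agent.S31x.Hc.H19
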