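import Fermat.Agent.S31x.H16_Defs
import Fermat.Agent.S31x.Hc.H19_Abs
import Fermat.Agent.S30x.GALn.H5_Pow
import Fermat.Agent.S42x.Kum.H8_StKExAll
import Fermat.Agent.S42x.Heq.H23_Asm

/-!
# S31 (W9), leaf (C-inst): the Hecke congruence (HC) from its inputs (helper19, W9 chief)

`StHCd p N S` (helper16's interface) from

* `hSpec : StSpec N p`                       (S37; through helper5's `h5n_hc`),
* `han : ∀ n, StHeckeAn N (p ^ n) e (ζ n)`   (W7 (KH-AN) at the exponents `p ^ n`),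
* `H19MatModel N p S`                        (the faithful, saturated matrix model of the Hecke
                                              action on `Hom_par(Γ₀(N), ℤ)`; helper23's (MAT)).

Everything else ((K-ex) for every exponent, (K-add), the easy converse, (K-hecke) plug) is on
main.
-/

set_option autoImplicit false
set_option linter.style.haveILetI false
set_option synthInstance.maxHeartbeats 400000
set_option maxHeartbeats 1000000

open ModularCurve ModularCurve.Period AlgebraicCurve CongruenceSubgroup Polynomial Matrix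
open Fermat.Agent.S22 Fermat.Agent.S16x.Low.H5
open Fermat.Agent.S42x.Kum.H12
open scoped MatrixGroups

noncomputable section

namespace Fermat.Agent.S31x.Hc.H19

/-- **(MAT)** the matrix model of the Hecke action on `Λ = Hom_par(Γ₀(N), ℤ)`, with exactly the
four properties (HC) needs: a family `b` of parabolic homomorphisms which is independent modulo
every integer, integer matrices `t ℓ` realising the coset formula, and (faithfulness +
saturation) a constant `c` such that a polynomial expression in two `t`'s which vanishes modulo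
`p ^ (n + c)` gives a Hecke operator divisible by `p ^ n`. -/
def H19MatModel (N p : ℕ) [NeZero N] (S : Finset ℕ) : Prop :=
  ∃ (r : ℕ) (b : Fin r → (Additive (Gamma0 N) →+ ℤ)) (t : ℕ → Matrix (Fin r) (Fin r) ℤ)
    (c : ℕ),
    (∀ j, IsParabolicHom (Gamma0 N) (b j)) ∧
    (∀ (M : ℕ) (z : Fin r → ℤ),
      (∀ γ : Gamma0 N, (M : ℤ) ∣ ∑ j, z j * b j (Additive.ofMul γ)) → ∀ j, (M : ℤ) ∣ z j) ∧
    (∀ (ℓ : ℕ) [Fact ℓ.Prime], ¬ ℓ ∣ N →
      ∀ (γ : Gamma0 N) (σ : Equiv.Perm (OnePoint (ZMod ℓ)))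
        (γ' : OnePoint (ZMod ℓ) → SL(2, ℤ))
        (h : CosetData (tA ℓ) (tB ℓ) (tD ℓ) N (γ : SL(2, ℤ)) σ γ') (j : Fin r),
        ∑ x, b j (Additive.ofMul (⟨γ' x, h.1 x⟩ : Gamma0 N)) =
          ∑ k, t ℓ k j * b k (Additive.ofMul γ)) ∧
    ∀ (n : ℕ) (ℓ : ℕ) (hℓ : ℓ.Prime) (hℓN : ¬ ℓ ∣ N) (hℓS : ℓ ∉ (S : Set ℕ))
      (ℓ' : ℕ) (hℓ' : ℓ'.Prime) (hℓ'N : ¬ ℓ' ∣ N) (hℓ'S : ℓ' ∉ (S : Set ℕ)) (P P' : ℤ[X]),
      (∀ i j, ((p ^ (n + c) : ℕ) : ℤ) ∣ (aeval (t ℓ) P - aeval (t ℓ') P') i j) →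
      aeval (CuspForm.heckeAlgebra.T hℓ hℓN hℓS) P -
          aeval (CuspForm.heckeAlgebra.T hℓ' hℓ'N hℓ'S) P' ∈
        Ideal.span {((p : ℕ) : CuspForm.heckeAlgebra N 2 (S : Set ℕ)) ^ n}

/-- Evaluation of Mathlib's Dickson polynomial over a `ℤ`-algebra. -/
theorem h19i_eval_dickson {R : Type*} [CommRing R] (a : ℕ) (k : ℕ) (T : R) :
    (Polynomial.dickson 1 ((a : ℕ) : R) k).eval T = aeval T (Polynomial.dickson 1 (a : ℤ) k) := by
  rw [aeval_def, eval₂_eq_eval_map, Polynomial.map_dickson]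
  simp

section

variable {N p : ℕ} {S : Finset ℕ}

/-- A linear combination of parabolic homomorphisms is parabolic. -/
theorem h19i_parabolic_sum {r : ℕ} (b : Fin r → (Additive (Gamma0 N) →+ ℤ))
    (hb : ∀ j, IsParabolicHom (Gamma0 N) (b j)) (z : Fin r → ℤ) :
    IsParabolicHom (Gamma0 N) (∑ j, z j • b j) := by
  intro γ hγ
  rw [AddMonoidHom.finsetSum_apply]
  refine Finset.sum_eq_zero fun j _ => ?_
  rw [AddMonoidHom.smul_apply, hb j γ hγ, smul_zero]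

theorem h19i_sum_apply {r : ℕ} (b : Fin r → (Additive (Gamma0 N) →+ ℤ)) (z : Fin r → ℤ)
    (γ : Additive (Gamma0 N)) : (∑ j, z j • b j) γ = ∑ j, z j * b j γ := by
  rw [AddMonoidHom.finsetSum_apply]
  refine Finset.sum_congr rfl fun j _ => ?_
  rw [AddMonoidHom.smul_apply, smul_eq_mul]

/-- **(C-inst)** the Hecke congruence (HC) from StSpec, (KH-AN) at the exponents `p ^ n` and
the matrix model. -/
theorem h19_stHCd_of [NeZero N] (hp : p.Prime) (hpS : p ∈ S) (hNS : ∀ q : ℕ, q.Prime → q ∣ N → q ∈ S)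
    (hSpec : Fermat.Agent.S37x.Asm.StSpec N p)
    (e : AlgebraicClosure ℚ →+* ℂ) (ζ : ℕ → ℂ) (hζ : ∀ n, IsPrimitiveRoot (ζ n) (p ^ n))
    (han : ∀ n, Fermat.Agent.S42x.Heq.H23.StHeckeAn N (p ^ n) e (ζ n))
    (hmat : H19MatModel N p S) : Fermat.Agent.S31x.H16.StHCd p N S := by
  classical
  obtain ⟨r, b, t, c, hbpar, hsat, hcos, hfaith⟩ := hmat
  intro m
  have hpn : p ^ (m + c) ≠ 0 := pow_ne_zero _ hp.ne_zero
  have hζ0 : ζ (m + c) ≠ 0 := (hζ (m + c)).ne_zero hpn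
  -- the Kummer classes of the basis
  have hex : ∀ j, ∃ x : JZero N, KumRel N (p ^ (m + c)) e (ζ (m + c)) x (b j) := fun j =>
    Fermat.Agent.S42x.Kum.H8.stKEx_all N (p ^ (m + c)) hpn e (ζ (m + c))
      (hζ (m + c)).pow_eq_one (b j) (hbpar j)
  choose x hx using hex
  have hxn : ∀ j, p ^ (m + c) • x j = 0 := fun j => kumRel_torsion (hx j)
  -- the number field
  obtain ⟨K, hK, -, -, -, -, hrel⟩ :=
    Fermat.Agent.S30x.GALn.H5.h5n_hc hSpec hp.ne_zero x (m + c) hxn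
      (⊥ : IntermediateField ℚ (AlgebraicClosure ℚ))
  refine ⟨K, hK, ?_⟩
  intro q hq hqS B hB τ hτ g ℓ hℓ hℓN hℓS A hA σ hσ k hg ℓ' hℓ' hℓ'N hℓ'S A' hA' σ' hσ' k' hg'
  -- the primes are prime to `N p`
  have hne : ∀ ℓ₀ : ℕ, ℓ₀.Prime → ¬ ℓ₀ ∣ N → ℓ₀ ∉ (S : Set ℕ) → ¬ ℓ₀ ∣ N * p := by
    intro ℓ₀ hℓ₀ hN hS hdvd
    rcases (Nat.Prime.dvd_mul hℓ₀).mp hdvd with h | h
    · exact hN h
    · have : ℓ₀ = p := (Nat.prime_dvd_prime_iff_eq hℓ₀ hp).mp h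
      exact hS (by rw [this]; exact_mod_cast hpS)
  have hqN : ¬ q ∣ N * p :=
    hne q hq (fun h => hqS (hNS q hq h)) (by exact_mod_cast hqS)
  have hℓNp := hne ℓ hℓ hℓN hℓS
  have hℓ'Np := hne ℓ' hℓ' hℓ'N hℓ'S
  have hpow : ∀ ℓ₀ : ℕ, ℓ₀.Prime → ¬ ℓ₀ ∣ N * p → ¬ ℓ₀ ∣ N * p ^ (m + c) := by
    intro ℓ₀ hℓ₀ h hdvd
    rcases (Nat.Prime.dvd_mul hℓ₀).mp hdvd with h1 | h1
    · exact h (Dvd.dvd.mul_right h1 p)
    · exact h (Dvd.dvd.mul_left (hℓ₀.dvd_of_dvd_pow h1) N)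
  -- the J-side
  have hJ : ∀ j, aeval (heckeOperatorBar N ⟨ℓ, hℓ⟩) (dickson 1 (ℓ : ℤ) k) (x j) =
      aeval (heckeOperatorBar N ⟨ℓ', hℓ'⟩) (dickson 1 (ℓ' : ℤ) k') (x j) := by
    intro j
    have := hrel q hq hqN B hB τ hτ g ℓ hℓ hℓNp A hA σ hσ k hg ℓ' hℓ' hℓ'Np A' hA' σ' hσ' k' hg'
      1 j
    rwa [one_smul] at this
  -- the relation
  let Rel : JZero N → (Fin r → ℤ) → Prop := fun y z =>
    KumRel N (p ^ (m + c)) e (ζ (m + c)) y (∑ j, z j • b j)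
  have hzero : Rel 0 0 := by
    show KumRel N (p ^ (m + c)) e (ζ (m + c)) 0 (∑ j, (0 : Fin r → ℤ) j • b j)
    have h0 : (∑ j, (0 : Fin r → ℤ) j • b j) = 0 := by simp
    rw [h0]
    exact kumRel_zero
  have hadd : ∀ y y' z z', Rel y z → Rel y' z' → Rel (y + y') (z + z') := by
    intro y y' z z' h h'
    show KumRel N (p ^ (m + c)) e (ζ (m + c)) (y + y') (∑ j, (z + z') j • b j)
    have h0 : (∑ j, (z + z') j • b j) = (∑ j, z j • b j) + ∑ j, z' j • b j := by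
      rw [← Finset.sum_add_distrib]
      exact Finset.sum_congr rfl fun j _ => by rw [Pi.add_apply, add_smul]
    rw [h0]
    exact kumRel_add hζ0 h h'
  have hneg : ∀ y z, Rel y z → Rel (-y) (-z) := by
    intro y z h
    show KumRel N (p ^ (m + c)) e (ζ (m + c)) (-y) (∑ j, (-z) j • b j)
    have h0 : (∑ j, (-z) j • b j) = -∑ j, z j • b j := by
      rw [← Finset.sum_neg_distrib]
      exact Finset.sum_congr rfl fun j _ => by rw [Pi.neg_apply, neg_smul]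
    rw [h0]
    exact kumRel_neg h
  have hinj : ∀ z, Rel 0 z → ∀ i, ((p ^ (m + c) : ℕ) : ℤ) ∣ z i := by
    intro z h
    refine hsat (p ^ (m + c)) z fun γ => ?_
    have h1 := kumRel_inj_easy hpn (hζ (m + c)) h γ
    rwa [h19i_sum_apply] at h1
  have hT : ∀ (ℓ₀ : ℕ) (hℓ₀ : ℓ₀.Prime), ¬ ℓ₀ ∣ N * p →
      ∀ y z, Rel y z → Rel (heckeOperatorBar N ⟨ℓ₀, hℓ₀⟩ y) (t ℓ₀ *ᵥ z) := by
    intro ℓ₀ hℓ₀ hℓ₀N y z h
    have hℓ₀N' : ¬ ℓ₀ ∣ N := fun h => hℓ₀N (Dvd.dvd.mul_right h p)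
    refine Fermat.Agent.S42x.Heq.H23.h23_kumHecke_of_an (han (m + c)) ⟨ℓ₀, hℓ₀⟩
      (hpow ℓ₀ hℓ₀ hℓ₀N) y _ _ h (h19i_parabolic_sum b hbpar z) ?_
    haveI : Fact ℓ₀.Prime := ⟨hℓ₀⟩
    intro γ σ₀ γ' hc
    rw [h19i_sum_apply]
    simp only [h19i_sum_apply]
    rw [Finset.sum_comm]
    have h1 : ∀ j, ∑ i, z j * b j (Additive.ofMul (⟨γ' i, hc.1 i⟩ : Gamma0 N)) =
        z j * ∑ k, t ℓ₀ k j * b k (Additive.ofMul γ) := by
      intro j
      rw [← Finset.mul_sum, hcos ℓ₀ hℓ₀N' γ σ₀ γ' hc j]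
    rw [Finset.sum_congr rfl fun j _ => h1 j]
    simp only [Finset.mul_sum, Matrix.mulVec, dotProduct, Finset.sum_mul]
    rw [Finset.sum_comm]
    refine Finset.sum_congr rfl fun k _ => Finset.sum_congr rfl fun j _ => ?_
    ring
  have hxrel : ∀ j, Rel (x j) (Pi.single j 1) := by
    intro j
    show KumRel N (p ^ (m + c)) e (ζ (m + c)) (x j) (∑ i, (Pi.single j (1 : ℤ) : Fin r → ℤ) i • b i)
    have h0 : (∑ i, (Pi.single j (1 : ℤ) : Fin r → ℤ) i • b i) = b j := by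
      rw [Finset.sum_eq_single j]
      · rw [Pi.single_eq_same, one_smul]
      · intro i _ hij
        rw [Pi.single_eq_of_ne hij, zero_smul]
      · intro h
        exact absurd (Finset.mem_univ j) h
    rw [h0]
    exact hx j
  have hdvd := h19c_dvd_of_eq Rel hzero hadd hneg ((p ^ (m + c) : ℕ) : ℤ) hinj
    (heckeOperatorBar N ⟨ℓ, hℓ⟩) (heckeOperatorBar N ⟨ℓ', hℓ'⟩) (t ℓ) (t ℓ')
    (hT ℓ hℓ hℓNp) (hT ℓ' hℓ' hℓ'Np) x hxrel (dickson 1 (ℓ : ℤ) k) (dickson 1 (ℓ' : ℤ) k') hJ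
  have hfin := hfaith m ℓ hℓ hℓN hℓS ℓ' hℓ' hℓ'N hℓ'S (dickson 1 (ℓ : ℤ) k)
    (dickson 1 (ℓ' : ℤ) k') hdvd
  rw [h19i_eval_dickson, h19i_eval_dickson]
  exact hfin

end

end Fermat.Agent.S31x.Hc.H19
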