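import Fermat.Agent.S31x.Hc.H19_Inst

/-!
# S31 (W9): the matrix model from a faithful integral representation of the Hecke algebra
(helper19, W9 chief)

* `h19m_sat`          : saturation (Artin–Rees) for a subgroup of a finitely generated abelian
                        group;
* `h19_matModel_of`   : `H19MatModel N p S` from a family `b`, matrices `t` and an injective ring
                        homomorphism `Ψ : heckeAlgebra N 2 S → M_r(ℤ)` with `Ψ (T_ℓ) = t ℓ`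
                        (helper23's (MAT) (M1), (M3), (M4), (M6)).
-/

set_option autoImplicit false
set_option linter.style.haveILetI false
set_option synthInstance.maxHeartbeats 400000
set_option maxHeartbeats 1000000

open ModularCurve ModularCurve.Period AlgebraicCurve CongruenceSubgroup Polynomial Matrix
open Fermat.Agent.S22 Fermat.Agent.S16x.Low.H5
open scoped MatrixGroups

noncomputable section

namespace Fermat.Agent.S31x.Hc.H19

/-- **Saturation** (Artin–Rees over `ℤ`): for a subgroup `H` of a finitely generated abelian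
group `M` and an integer `p` there is a constant `c` such that every element of
`H ∩ p ^ (n + c) M` is `p ^ n` times an element of `H`. -/
theorem h19m_sat {M : Type*} [AddCommGroup M] [Module.Finite ℤ M] (H : Submodule ℤ M) (p : ℤ) :
    ∃ c : ℕ, ∀ (n : ℕ) (t : M), t ∈ H → (∃ u : M, t = (p ^ (n + c)) • u) →
      ∃ t' ∈ H, t = (p ^ n) • t' := by
  obtain ⟨k, hk⟩ := Ideal.exists_pow_inf_eq_pow_smul (Ideal.span {p}) H
  refine ⟨k, fun n t ht hu => ?_⟩
  obtain ⟨u, rfl⟩ := hu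
  have h1 : (p ^ (n + k)) • u ∈ Ideal.span {p} ^ (n + k) • (⊤ : Submodule ℤ M) ⊓ H := by
    refine ⟨?_, ht⟩
    refine Submodule.smul_mem_smul ?_ Submodule.mem_top
    exact Ideal.pow_mem_pow (Ideal.mem_span_singleton_self p) _
  rw [hk (n + k) (Nat.le_add_left k n), Nat.add_sub_cancel] at h1
  have h2 : Ideal.span {p} ^ n • (Ideal.span {p} ^ k • (⊤ : Submodule ℤ M) ⊓ H) ≤
      Ideal.span {p} ^ n • H := Submodule.smul_mono le_rfl inf_le_right
  have h3 := h2 h1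
  rw [Ideal.span_singleton_pow, Submodule.ideal_span_singleton_smul] at h3
  obtain ⟨t', ht', h4⟩ := h3
  exact ⟨t', ht', h4.symm⟩

section

variable {N p : ℕ} [NeZero N] {S : Finset ℕ}

/-- A ring homomorphism into integer matrices commutes with the evaluation of integer
polynomials. -/
theorem h19m_map_aeval {R : Type*} [CommRing R] {r : ℕ}
    (Ψ : R →+* Matrix (Fin r) (Fin r) ℤ) (T : R) (P : ℤ[X]) :
    Ψ (aeval T P) = aeval (Ψ T) P := by
  have := Polynomial.aeval_algHom_apply (Ψ.toIntAlgHom) T P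
  exact this.symm

/-- **(MAT) ⟹ the matrix model**: from a faithful integral representation of the Hecke
algebra. -/
theorem h19_matModel_of {r : ℕ} (b : Fin r → (Additive (Gamma0 N) →+ ℤ))
    (t : ℕ → Matrix (Fin r) (Fin r) ℤ)
    (hpar : ∀ j, IsParabolicHom (Gamma0 N) (b j))
    (hsat : ∀ (M : ℕ) (z : Fin r → ℤ),
      (∀ γ : Gamma0 N, (M : ℤ) ∣ ∑ j, z j * b j (Additive.ofMul γ)) → ∀ j, (M : ℤ) ∣ z j)
    (hcos : ∀ (ℓ : ℕ) [Fact ℓ.Prime], ¬ ℓ ∣ N →
      ∀ (γ : Gamma0 N) (σ : Equiv.Perm (OnePoint (ZMod ℓ)))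
        (γ' : OnePoint (ZMod ℓ) → SL(2, ℤ))
        (h : CosetData (tA ℓ) (tB ℓ) (tD ℓ) N (γ : SL(2, ℤ)) σ γ') (j : Fin r),
        ∑ x, b j (Additive.ofMul (⟨γ' x, h.1 x⟩ : Gamma0 N)) =
          ∑ k, t ℓ k j * b k (Additive.ofMul γ))
    (Ψ : CuspForm.heckeAlgebra N 2 (S : Set ℕ) →+* Matrix (Fin r) (Fin r) ℤ)
    (hΨT : ∀ (ℓ : ℕ) (hℓ : ℓ.Prime) (hℓN : ¬ ℓ ∣ N) (hℓS : ℓ ∉ (S : Set ℕ)),
      Ψ (CuspForm.heckeAlgebra.T hℓ hℓN hℓS) = t ℓ)
    (hΨ : Function.Injective Ψ) : H19MatModel N p S := by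
  obtain ⟨c, hc⟩ := h19m_sat (LinearMap.range (Ψ.toIntAlgHom.toLinearMap)) (p : ℤ)
  refine ⟨r, b, t, c, hpar, hsat, hcos, ?_⟩
  intro n ℓ hℓ hℓN hℓS ℓ' hℓ' hℓ'N hℓ'S P P' hdvd
  set Q : CuspForm.heckeAlgebra N 2 (S : Set ℕ) :=
    aeval (CuspForm.heckeAlgebra.T hℓ hℓN hℓS) P -
      aeval (CuspForm.heckeAlgebra.T hℓ' hℓ'N hℓ'S) P' with hQ
  have hΨQ : Ψ Q = aeval (t ℓ) P - aeval (t ℓ') P' := by
    rw [hQ, map_sub, h19m_map_aeval, h19m_map_aeval, hΨT, hΨT]
  have hu : ∃ u : Matrix (Fin r) (Fin r) ℤ, Ψ Q = ((p : ℤ) ^ (n + c)) • u := by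
    have hd : ∀ i j, ∃ v : ℤ, (Ψ Q) i j = (p : ℤ) ^ (n + c) * v := by
      intro i j
      have := hdvd i j
      rw [← hΨQ] at this
      obtain ⟨v, hv⟩ := this
      exact ⟨v, by rw [hv]; push_cast; ring⟩
    choose u hu using hd
    refine ⟨Matrix.of u, ?_⟩
    ext i j
    rw [hu i j]
    simp
  obtain ⟨t', ⟨Q', hQ'⟩, ht'⟩ := hc n (Ψ Q) ⟨Q, rfl⟩ hu
  have hQeq : Q = ((p : ℕ) : CuspForm.heckeAlgebra N 2 (S : Set ℕ)) ^ n * Q' := by
    apply hΨ
    rw [ht', ← hQ', map_mul, map_pow, map_natCast]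
    show ((p : ℤ) ^ n) • Ψ Q' = _
    rw [zsmul_eq_mul]
    push_cast
    rfl
  rw [hQeq]
  exact Ideal.mul_mem_right _ _ (Ideal.mem_span_singleton_self _)

end

end Fermat.Agent.S31x.Hc.H19
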